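import Fermat.Agent.H74.Cub.Main
import Fermat.Agent.H51.S58.Interfaces

/-!
# HASSE3 (P-S58 row 1095): the Hasse relation for every elliptic curve over `𝔽₃`
(helper74, route A)

Also the general form `hasseSmall_of_odd` for every odd prime `ℓ`.
-/

set_option autoImplicit false

namespace Fermat.Agent.H74.Cub

/-- The Hasse relation for every elliptic curve over `𝔽_ℓ`, `ℓ` an odd prime. -/
theorem hasseSmall_of_odd (ℓ : ℕ) [Fact ℓ.Prime] (hℓ : ℓ ≠ 2) :
    Fermat.Agent.H51.S58.HasseSmallStatement ℓ := by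
  intro E hΔ
  refine hasseRelation_of_two_ne_zero E ?_ hΔ
  intro h
  have h' : ((2 : ℕ) : ZMod ℓ) = 0 := by exact_mod_cast h
  rw [ZMod.natCast_eq_zero_iff] at h'
  exact hℓ ((Nat.prime_dvd_prime_iff_eq Fact.out Nat.prime_two).mp h')

/-- **HASSE3.** -/
theorem hasseThree :
    @Fermat.Agent.H51.S58.HasseSmallStatement 3 (Fact.mk Nat.prime_three) :=
  @hasseSmall_of_odd 3 (Fact.mk Nat.prime_three) (by norm_num)

end Fermat.Agent.H74.Cub
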