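import Fermat.Agent.H32.S52ManinCount5

/-!
# Manin's count for a general monic cubic (helper74, P-S58 row 1095, route A)

Port of `Fermat.Agent.H32.S52ManinCount*` (helper32) from `f = X³ + aX + b` to
`f = X³ + cX² + aX + b`: for a finite field `F` of odd characteristic and a separable cubic `f`,
the rational function `x(Φ - P₀) = f · ((f^((q-1)/2) + 1) / (X^q - X))² - X^q - X - c` has, in
lowest terms, numerator of degree `#E(F)` and denominator of degree `#E(F) - 1`.
-/

set_option autoImplicit false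

namespace Fermat.Agent.H74.Cub

open Polynomial Fermat.Agent.H32

section Count

variable {F : Type*} [Field F] [Fintype F]

/-- The cubic `f = X³ + cX² + aX + b`. -/
noncomputable def cqCubic (c a b : F) : F[X] := X ^ 3 + C c * X ^ 2 + C a * X + C b

/-- `g = f^(q/2) + 1`. -/
noncomputable def cqG (c a b : F) : F[X] := cqCubic c a b ^ (Fintype.card F / 2) + 1

/-- The numerator `f g² - (X^q + X + c) D²` of `x(Φ - P₀)` over the denominator `D²`. -/
noncomputable def cqNum (c a b : F) : F[X] :=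
  cqCubic c a b * cqG c a b ^ 2 - (X ^ Fintype.card F + X + C c) * mcD F ^ 2

omit [Fintype F] in
lemma cqCubic_eval (c a b x : F) : (cqCubic c a b).eval x = x ^ 3 + c * x ^ 2 + a * x + b := by
  simp [cqCubic]

lemma cqG_eval (c a b x : F) :
    (cqG c a b).eval x = (x ^ 3 + c * x ^ 2 + a * x + b) ^ (Fintype.card F / 2) + 1 := by
  simp [cqG, cqCubic]

lemma cqCubic_pow_card (c a b : F) :
    cqCubic c a b ^ Fintype.card F =
      X ^ (3 * Fintype.card F) + C c * X ^ (2 * Fintype.card F) + C a * X ^ Fintype.card F +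
        C b := by
  rw [← FiniteField.expand_card]
  simp only [cqCubic, map_add, map_mul, map_pow, expand_X, expand_C]
  ring

/-- Explicit expansion of the numerator. -/
lemma cqNum_expand (hF : ringChar F ≠ 2) (c a b : F) :
    cqNum c a b = X ^ (2 * Fintype.card F + 1) +
      (X ^ (Fintype.card F + 2) + C (2 * c) * X ^ (Fintype.card F + 1) +
        C a * X ^ Fintype.card F + C a * X + C (2 * b) +
        2 * cqCubic c a b ^ (Fintype.card F / 2 + 1)) := by
  have hq := mc_card_eq (F := F) hF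
  have h1 := cqCubic_pow_card c a b
  set q := Fintype.card F with hqdef
  set m := q / 2 with hm
  have h2 : cqCubic c a b * cqG c a b ^ 2 =
      cqCubic c a b ^ q + 2 * cqCubic c a b ^ (m + 1) + cqCubic c a b := by
    have : cqCubic c a b ^ q = cqCubic c a b ^ (2 * m + 1) := by rw [← hq]
    rw [this, cqG]
    ring
  rw [cqNum, h2, h1, mcD]
  simp only [cqCubic, map_mul, map_ofNat]
  ring

lemma natDegree_cqNum (hF : ringChar F ≠ 2) (c a b : F) :
    (cqNum c a b).natDegree = 2 * Fintype.card F + 1 := by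
  have hq := mc_card_eq (F := F) hF
  have hm := mc_half_pos (F := F) hF
  rw [cqNum_expand hF]
  set q := Fintype.card F with hqdef
  set m := q / 2 with hmdef
  have hf : (cqCubic c a b).natDegree ≤ 3 := by
    unfold cqCubic
    compute_degree
  have h5 : (2 * cqCubic c a b ^ (m + 1)).natDegree ≤ 2 * q := by
    calc (2 * cqCubic c a b ^ (m + 1)).natDegree
        ≤ (cqCubic c a b ^ (m + 1)).natDegree := by
          have : (2 : F[X]) = C 2 := (map_ofNat C 2).symm
          rw [this]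
          exact natDegree_C_mul_le _ _
      _ ≤ (m + 1) * (cqCubic c a b).natDegree := natDegree_pow_le
      _ ≤ (m + 1) * 3 := Nat.mul_le_mul_left _ hf
      _ ≤ 2 * q := by omega
  have h1 : (X ^ (q + 2) : F[X]).natDegree ≤ 2 * q := by
    rw [natDegree_X_pow]; omega
  have h1' : (C (2 * c) * X ^ (q + 1) : F[X]).natDegree ≤ 2 * q := by
    refine (natDegree_C_mul_le _ _).trans ?_
    rw [natDegree_X_pow]; omega
  have h2 : (C a * X ^ q : F[X]).natDegree ≤ 2 * q := by
    refine (natDegree_C_mul_le _ _).trans ?_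
    rw [natDegree_X_pow]; omega
  have h3 : (C a * X : F[X]).natDegree ≤ 2 * q := by
    refine (natDegree_C_mul_le _ _).trans ?_
    rw [natDegree_X]; omega
  have h4 : (C (2 * b) : F[X]).natDegree ≤ 2 * q := by
    rw [natDegree_C]; omega
  have hR : (X ^ (q + 2) + C (2 * c) * X ^ (q + 1) + C a * X ^ q + C a * X + C (2 * b) +
      2 * cqCubic c a b ^ (m + 1)).natDegree ≤ 2 * q :=
    natDegree_add_le_of_degree_le (natDegree_add_le_of_degree_le
      (natDegree_add_le_of_degree_le (natDegree_add_le_of_degree_le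
        (natDegree_add_le_of_degree_le h1 h1') h2) h3) h4) h5
  rw [natDegree_add_eq_left_of_natDegree_lt, natDegree_X_pow]
  rw [natDegree_X_pow]
  omega

lemma cqNum_ne_zero (hF : ringChar F ≠ 2) (c a b : F) : cqNum c a b ≠ 0 := by
  intro h
  have := natDegree_cqNum hF c a b
  rw [h, natDegree_zero] at this
  omega

lemma cqNum_eval (c a b α : F) :
    (cqNum c a b).eval α =
      (α ^ 3 + c * α ^ 2 + a * α + b) *
        ((α ^ 3 + c * α ^ 2 + a * α + b) ^ (Fintype.card F / 2) + 1) ^ 2 := by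
  simp [cqNum, cqG_eval, cqCubic_eval, mcD_eval]

/-- At a point where `f` is a nonzero square the numerator does not vanish. -/
lemma cqNum_eval_ne_zero_of_isSquare (hF : ringChar F ≠ 2) (c a b α : F)
    (h0 : α ^ 3 + c * α ^ 2 + a * α + b ≠ 0) (hsq : IsSquare (α ^ 3 + c * α ^ 2 + a * α + b)) :
    (cqNum c a b).eval α ≠ 0 := by
  rw [cqNum_eval, (FiniteField.isSquare_iff hF h0).mp hsq]
  have h2 := mc_two_ne_zero hF
  refine mul_ne_zero h0 (pow_ne_zero _ ?_)
  norm_num
  exact h2

/-- At a point where `f` is not a square the numerator vanishes to order at least 2. -/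
lemma sq_dvd_cqNum_of_not_isSquare (hF : ringChar F ≠ 2) (c a b α : F)
    (hsq : ¬ IsSquare (α ^ 3 + c * α ^ 2 + a * α + b)) :
    (X - C α) ^ 2 ∣ cqNum c a b := by
  have h0 : α ^ 3 + c * α ^ 2 + a * α + b ≠ 0 := by
    intro h
    exact hsq (h ▸ IsSquare.zero)
  have hpow : (α ^ 3 + c * α ^ 2 + a * α + b) ^ (Fintype.card F / 2) = -1 := by
    rcases FiniteField.pow_dichotomy hF h0 with h | h
    · exact absurd ((FiniteField.isSquare_iff hF h0).mpr h) hsq
    · exact h
  have hg : (X - C α) ∣ cqG c a b := by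
    rw [dvd_iff_isRoot, IsRoot, cqG_eval, hpow]
    ring
  have hd : (X - C α) ∣ mcD F := by
    rw [dvd_iff_isRoot, IsRoot, mcD_eval]
  unfold cqNum
  exact dvd_sub (dvd_mul_of_dvd_right (pow_dvd_pow_of_dvd hg 2) _)
    (dvd_mul_of_dvd_right (pow_dvd_pow_of_dvd hd 2) _)

/-- Separability of the cubic: the derivative does not vanish at the roots. -/
def CqSep (c a b : F) : Prop :=
  ∀ α : F, α ^ 3 + c * α ^ 2 + a * α + b = 0 → 3 * α ^ 2 + 2 * c * α + a ≠ 0

/-- At a root of `f` the numerator has a simple zero. -/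
lemma cqNum_factor_of_root (hF : ringChar F ≠ 2) (c a b α : F)
    (hΔ : CqSep c a b) (h0 : α ^ 3 + c * α ^ 2 + a * α + b = 0) :
    ∃ M : F[X], cqNum c a b = (X - C α) * M ∧ M.eval α ≠ 0 := by
  have hm := mc_half_pos (F := F) hF
  obtain ⟨D₁, hD₁⟩ : (X - C α) ∣ mcD F := by
    rw [dvd_iff_isRoot, IsRoot, mcD_eval]
  have hb : b = -(α ^ 3 + c * α ^ 2 + a * α) := by linear_combination h0
  have hf : cqCubic c a b = (X - C α) * (X ^ 2 + C (α + c) * X + C (α ^ 2 + c * α + a)) := by
    rw [cqCubic, hb]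
    simp only [map_neg, map_add, map_mul, map_pow]
    ring
  refine ⟨(X ^ 2 + C (α + c) * X + C (α ^ 2 + c * α + a)) * cqG c a b ^ 2 -
      (X ^ Fintype.card F + X + C c) * ((X - C α) * D₁ ^ 2), ?_, ?_⟩
  · rw [cqNum, hD₁]
    nth_rewrite 1 [hf]
    ring
  · have hg : (cqG c a b).eval α = 1 := by
      rw [cqG_eval, h0, zero_pow hm.ne', zero_add]
    simp only [eval_sub, eval_mul, eval_add, eval_pow, eval_X, eval_C, hg, sub_self, zero_mul,
      mul_zero, sub_zero, one_pow, mul_one]
    intro h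
    apply hΔ α h0
    linear_combination h

open Classical in
/-- The local cancellation exponent at `α`. -/
noncomputable def cqExp (c a b α : F) : ℕ :=
  if α ^ 3 + c * α ^ 2 + a * α + b = 0 then 1
  else if IsSquare (α ^ 3 + c * α ^ 2 + a * α + b) then 0 else 2

lemma cqExp_le_two (c a b α : F) : cqExp c a b α ≤ 2 := by
  unfold cqExp
  split_ifs <;> omega

/-- The common factor `G = ∏ (X - α)^c(α)`. -/
noncomputable def cqGcd (c a b : F) : F[X] := ∏ α : F, (X - C α) ^ cqExp c a b α

/-- The reduced denominator `D' = ∏ (X - α)^(2 - c(α))`. -/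
noncomputable def cqDen (c a b : F) : F[X] := ∏ α : F, (X - C α) ^ (2 - cqExp c a b α)

lemma mcD_sq_eq_cq (c a b : F) : mcD F ^ 2 = cqGcd c a b * cqDen c a b := by
  rw [mcD_eq_prod, cqGcd, cqDen, ← Finset.prod_mul_distrib, ← Finset.prod_pow]
  refine Finset.prod_congr rfl fun α _ => ?_
  rw [← pow_add]
  congr 1
  have := cqExp_le_two c a b α
  omega

lemma cqGcd_ne_zero (c a b : F) : cqGcd c a b ≠ 0 := by
  unfold cqGcd
  exact Finset.prod_ne_zero_iff.mpr fun α _ => pow_ne_zero _ (X_sub_C_ne_zero α)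

lemma cqDen_ne_zero (c a b : F) : cqDen c a b ≠ 0 := by
  unfold cqDen
  exact Finset.prod_ne_zero_iff.mpr fun α _ => pow_ne_zero _ (X_sub_C_ne_zero α)

lemma cqGcd_dvd_cqNum (hF : ringChar F ≠ 2) (c a b : F) (hΔ : CqSep c a b) :
    cqGcd c a b ∣ cqNum c a b := by
  unfold cqGcd
  refine Finset.prod_dvd_of_coprime ?_ ?_
  · intro α _ β _ hαβ
    exact (pairwise_coprime_X_sub_C (fun x y h => h) hαβ).pow
  · intro α _
    unfold cqExp
    split_ifs with h0 hsq
    · obtain ⟨M, hM, -⟩ := cqNum_factor_of_root hF c a b α hΔ h0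
      rw [pow_one, hM]
      exact dvd_mul_right _ _
    · simp
    · exact sq_dvd_cqNum_of_not_isSquare hF c a b α hsq

/-- The reduced numerator. -/
noncomputable def cqRedNum (c a b : F) : F[X] := cqNum c a b / cqGcd c a b

lemma cqNum_eq (hF : ringChar F ≠ 2) (c a b : F) (hΔ : CqSep c a b) :
    cqNum c a b = cqGcd c a b * cqRedNum c a b := by
  unfold cqRedNum
  exact (EuclideanDomain.mul_div_cancel' (cqGcd_ne_zero c a b) (cqGcd_dvd_cqNum hF c a b hΔ)).symm

lemma cqRedNum_ne_zero (hF : ringChar F ≠ 2) (c a b : F) (hΔ : CqSep c a b) :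
    cqRedNum c a b ≠ 0 := by
  intro h
  have := cqNum_eq hF c a b hΔ
  rw [h, mul_zero] at this
  exact cqNum_ne_zero hF c a b this

lemma cqGcd_split (c a b α : F) :
    ∃ G₁ : F[X], cqGcd c a b = (X - C α) ^ cqExp c a b α * G₁ ∧ G₁.eval α ≠ 0 := by
  classical
  refine ⟨∏ β ∈ Finset.univ.erase α, (X - C β) ^ cqExp c a b β, ?_, ?_⟩
  · unfold cqGcd
    exact (Finset.mul_prod_erase Finset.univ (fun β => (X - C β) ^ cqExp c a b β)
      (Finset.mem_univ α)).symm
  · rw [eval_prod]
    refine Finset.prod_ne_zero_iff.mpr fun β hβ => ?_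
    have hβα : β ≠ α := Finset.ne_of_mem_erase hβ
    simp only [eval_pow, eval_sub, eval_X, eval_C]
    exact pow_ne_zero _ (sub_ne_zero.mpr (Ne.symm hβα))

lemma cqRedNum_eval_ne_zero (hF : ringChar F ≠ 2) (c a b : F) (hΔ : CqSep c a b)
    (α : F) (hα : cqExp c a b α < 2) : (cqRedNum c a b).eval α ≠ 0 := by
  obtain ⟨G₁, hG₁, hG₁α⟩ := cqGcd_split c a b α
  have hN := cqNum_eq hF c a b hΔ
  unfold cqExp at hα hG₁
  split_ifs at hα hG₁ with h0 hsq
  · -- simple root
    obtain ⟨M, hM, hMα⟩ := cqNum_factor_of_root hF c a b α hΔ h0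
    rw [hG₁, hM, pow_one, mul_assoc] at hN
    have hM' : M = G₁ * cqRedNum c a b := mul_left_cancel₀ (X_sub_C_ne_zero α) hN
    intro h
    apply hMα
    rw [hM', eval_mul, h, mul_zero]
  · -- nonzero square
    have hne := cqNum_eval_ne_zero_of_isSquare hF c a b α h0 hsq
    intro h
    apply hne
    rw [hN, eval_mul, h, mul_zero]
  · omega

lemma isCoprime_cqRedNum_cqDen (hF : ringChar F ≠ 2) (c a b : F)
    (hΔ : CqSep c a b) : IsCoprime (cqRedNum c a b) (cqDen c a b) := by
  unfold cqDen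
  refine IsCoprime.prod_right fun α _ => ?_
  by_cases hα : cqExp c a b α < 2
  · refine IsCoprime.pow_right ?_
    refine ((irreducible_X_sub_C α).coprime_iff_not_dvd.mpr ?_).symm
    rw [dvd_iff_isRoot]
    exact cqRedNum_eval_ne_zero hF c a b hΔ α hα
  · have : 2 - cqExp c a b α = 0 := by omega
    rw [this, pow_zero]
    exact isCoprime_one_right

lemma natDegree_cqGcd (c a b : F) : (cqGcd c a b).natDegree = ∑ α : F, cqExp c a b α := by
  unfold cqGcd
  rw [natDegree_prod_of_monic _ _ (fun α _ => (monic_X_sub_C α).pow _)]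
  refine Finset.sum_congr rfl fun α _ => ?_
  rw [natDegree_pow, natDegree_X_sub_C, mul_one]

lemma natDegree_cqDen (c a b : F) :
    (cqDen c a b).natDegree = ∑ α : F, (2 - cqExp c a b α) := by
  unfold cqDen
  rw [natDegree_prod_of_monic _ _ (fun α _ => (monic_X_sub_C α).pow _)]
  refine Finset.sum_congr rfl fun α _ => ?_
  rw [natDegree_pow, natDegree_X_sub_C, mul_one]

lemma natDegree_cqRedNum (hF : ringChar F ≠ 2) (c a b : F) (hΔ : CqSep c a b) :
    (cqRedNum c a b).natDegree = (∑ α : F, (2 - cqExp c a b α)) + 1 := by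
  have h1 := natDegree_cqNum hF c a b
  rw [cqNum_eq hF c a b hΔ, natDegree_mul (cqGcd_ne_zero c a b) (cqRedNum_ne_zero hF c a b hΔ),
    natDegree_cqGcd] at h1
  have h2 : (∑ α : F, cqExp c a b α) + ∑ α : F, (2 - cqExp c a b α) = 2 * Fintype.card F := by
    rw [← Finset.sum_add_distrib]
    have : ∀ α : F, cqExp c a b α + (2 - cqExp c a b α) = 2 := fun α => by
      have := cqExp_le_two c a b α
      omega
    simp [this, mul_comm]
  omega

/-- The rational function `x(Φ - P₀) = f (g / D)² - X^q - X - c`. -/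
noncomputable def cqRat (c a b : F) : RatFunc F :=
  algebraMap F[X] (RatFunc F) (cqNum c a b) / algebraMap F[X] (RatFunc F) (mcD F ^ 2)

lemma cqRat_eq_red (hF : ringChar F ≠ 2) (c a b : F) (hΔ : CqSep c a b) :
    cqRat c a b = algebraMap F[X] (RatFunc F) (cqRedNum c a b) /
      algebraMap F[X] (RatFunc F) (cqDen c a b) := by
  have hG : algebraMap F[X] (RatFunc F) (cqGcd c a b) ≠ 0 :=
    RatFunc.algebraMap_ne_zero (cqGcd_ne_zero c a b)
  rw [cqRat, cqNum_eq hF c a b hΔ, mcD_sq_eq_cq c a b, map_mul, map_mul, mul_div_mul_left _ _ hG]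

/-- **Manin's count**, polynomial form. -/
theorem cqRat_natDegree (hF : ringChar F ≠ 2) (c a b : F) (hΔ : CqSep c a b) :
    (cqRat c a b).num.natDegree = (∑ α : F, (2 - cqExp c a b α)) + 1 ∧
      (cqRat c a b).denom.natDegree = ∑ α : F, (2 - cqExp c a b α) := by
  rw [cqRat_eq_red hF c a b hΔ]
  obtain ⟨h1, h2⟩ := ratfunc_natDegree_of_isCoprime (cqRedNum c a b) (cqDen c a b)
    (cqRedNum_ne_zero hF c a b hΔ) (cqDen_ne_zero c a b) (isCoprime_cqRedNum_cqDen hF c a b hΔ)
  rw [h1, h2, natDegree_cqRedNum hF c a b hΔ, natDegree_cqDen]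
  exact ⟨rfl, rfl⟩

open Classical in
lemma cq_card_sqrt_eq (hF : ringChar F ≠ 2) (c a b α : F) :
    Fintype.card {y : F // y ^ 2 = α ^ 3 + c * α ^ 2 + a * α + b} = 2 - cqExp c a b α := by
  rw [mc_card_sqrt hF, cqExp]
  split_ifs <;> rfl

open Classical in
/-- The number of affine solutions of `y² = x³ + cx² + ax + b` is `∑_α (2 - c(α))`. -/
lemma cq_card_affine (hF : ringChar F ≠ 2) (c a b : F) :
    Nat.card {p : F × F // p.2 ^ 2 = p.1 ^ 3 + c * p.1 ^ 2 + a * p.1 + b} =
      ∑ α : F, (2 - cqExp c a b α) := by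
  rw [Nat.card_eq_fintype_card,
    Fintype.card_congr (Equiv.subtypeProdEquivSigmaSubtype
      (fun (x y : F) => y ^ 2 = x ^ 3 + c * x ^ 2 + a * x + b)), Fintype.card_sigma]
  refine Finset.sum_congr rfl fun α _ => ?_
  rw [← cq_card_sqrt_eq hF c a b α]

/-- The number of points of `y² = x³ + a₂x² + a₄x + a₆` with nonzero discriminant. -/
lemma cq_card_point (W : WeierstrassCurve F) (h1 : W.a₁ = 0) (h3 : W.a₃ = 0) (hΔ : W.Δ ≠ 0) :
    Nat.card W.toAffine.Point =
      Nat.card {p : F × F // p.2 ^ 2 = p.1 ^ 3 + W.a₂ * p.1 ^ 2 + W.a₄ * p.1 + W.a₆} + 1 := by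
  classical
  rw [Nat.card_congr (WeierstrassCurve.Affine.nonsingularPointEquiv (W' := W.toAffine))]
  change Nat.card (Option {xy : F × F // W.toAffine.Nonsingular xy.1 xy.2}) = _
  rw [Finite.card_option]
  congr 1
  refine Nat.card_congr (Equiv.subtypeEquivRight fun p => ?_)
  rw [← WeierstrassCurve.Affine.equation_iff_nonsingular_of_Δ_ne_zero hΔ,
    WeierstrassCurve.Affine.equation_iff, h1, h3]
  constructor
  · intro h; linear_combination h
  · intro h; linear_combination h

omit [Fintype F] in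
/-- Separability of the cubic from the discriminant. -/
lemma cqSep_of_Δ_ne_zero (W : WeierstrassCurve F) (h1 : W.a₁ = 0) (h3 : W.a₃ = 0)
    (hΔ : W.Δ ≠ 0) : CqSep W.a₂ W.a₄ W.a₆ := by
  intro α h0 h0'
  have heq : W.toAffine.Equation α 0 := by
    rw [WeierstrassCurve.Affine.equation_iff, h1, h3]
    linear_combination -h0
  have hns := (WeierstrassCurve.Affine.equation_iff_nonsingular_of_Δ_ne_zero hΔ).mp heq
  rw [WeierstrassCurve.Affine.nonsingular_iff] at hns
  rcases hns.2 with h | h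
  · apply h
    rw [h1]
    linear_combination -h0'
  · apply h
    rw [h1, h3]
    ring

/-- **Manin's count**: `max (deg num) (deg denom) = #E(F)`. -/
theorem cq_count_max (h2 : (2 : F) ≠ 0) (c a b : F)
    (hΔ : (⟨0, c, 0, a, b⟩ : WeierstrassCurve F).Δ ≠ 0) :
    max (cqRat c a b).num.natDegree (cqRat c a b).denom.natDegree =
      Nat.card (WeierstrassCurve.toAffine ⟨0, c, 0, a, b⟩).Point := by
  have hF := mc_ringChar_ne_two h2
  have hsep : CqSep c a b := cqSep_of_Δ_ne_zero (⟨0, c, 0, a, b⟩ : WeierstrassCurve F) rfl rfl hΔ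
  obtain ⟨hn, hd⟩ := cqRat_natDegree hF c a b hsep
  rw [cq_card_point (⟨0, c, 0, a, b⟩ : WeierstrassCurve F) rfl rfl hΔ]
  change _ = Nat.card {p : F × F // p.2 ^ 2 = p.1 ^ 3 + c * p.1 ^ 2 + a * p.1 + b} + 1
  rw [cq_card_affine hF, hn, hd]
  exact max_eq_left (Nat.le_succ _)

end Count

end Fermat.Agent.H74.Cub
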