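import Fermat.Agent.H40.Hasse.GenPoint
import Fermat.Agent.H74.Cub.GenField

/-!
# The generic point and the odd subgroup for `y² = x³ + a₂ x² + a₄ x + a₆`
(helper74, P-S58 row 1095 route A; port of `Fermat.Agent.H40.Hasse.GenPoint` by helper40)

`cubE a₂ a₄ a₆ : y² = x³ + a₂ x² + a₄ x + a₆` over a field `F`; for a field extension `k / F`,
`GenF a₂ a₄ a₆ k = k(t)(√f)`, the generic point `genPt = (t, √f)`, the conjugation on points
`conjPt`, and the subgroup `oddSub` of points `P` with `conj P = -P`.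
-/

set_option autoImplicit false
set_option linter.unusedSectionVars false

namespace Fermat.Agent.H74.Cub

open WeierstrassCurve WeierstrassCurve.Affine Polynomial Fermat.Agent.H40

variable {F : Type*} [Field F] (a₂ a₄ a₆ : F)

/-- The Weierstrass curve `y² = x³ + a₂ x² + a₄ x + a₆`. -/
def cubE : WeierstrassCurve F := ⟨0, a₂, 0, a₄, a₆⟩

@[simp] lemma cubE_a₁ : (cubE a₂ a₄ a₆).a₁ = 0 := rfl
@[simp] lemma cubE_a₂ : (cubE a₂ a₄ a₆).a₂ = a₂ := rfl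
@[simp] lemma cubE_a₃ : (cubE a₂ a₄ a₆).a₃ = 0 := rfl
@[simp] lemma cubE_a₄ : (cubE a₂ a₄ a₆).a₄ = a₄ := rfl
@[simp] lemma cubE_a₆ : (cubE a₂ a₄ a₆).a₆ = a₆ := rfl

variable (k : Type*) [Field k] [Algebra F k]

lemma cubE_equation_iff (x y : k) :
    ((cubE a₂ a₄ a₆)⁄k).Equation x y ↔
      y ^ 2 = x ^ 3 + algebraMap F k a₂ * x ^ 2 + algebraMap F k a₄ * x + algebraMap F k a₆ := by
  rw [Affine.equation_iff]
  simp [cubE, WeierstrassCurve.baseChange, WeierstrassCurve.map]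

lemma cubE_negY (x y : k) : ((cubE a₂ a₄ a₆)⁄k).negY x y = -y := by
  simp [Affine.negY, cubE, WeierstrassCurve.baseChange, WeierstrassCurve.map]

/-- The generic quadratic extension attached to the curve and the field `k`. -/
abbrev GenF : Type _ := GenField k (algebraMap F k a₂) (algebraMap F k a₄) (algebraMap F k a₆)

noncomputable instance GenF.decEq : DecidableEq (GenF a₂ a₄ a₆ k) := Classical.decEq _

lemma genPt_equation :
    ((cubE a₂ a₄ a₆)⁄(GenF a₂ a₄ a₆ k)).Equation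
      (genX k (algebraMap F k a₂) (algebraMap F k a₄) (algebraMap F k a₆))
      (genY k (algebraMap F k a₂) (algebraMap F k a₄) (algebraMap F k a₆)) := by
  rw [cubE_equation_iff, genY_sq']
  rw [IsScalarTower.algebraMap_apply F k (GenF a₂ a₄ a₆ k),
    IsScalarTower.algebraMap_apply F k (GenF a₂ a₄ a₆ k),
    IsScalarTower.algebraMap_apply F k (GenF a₂ a₄ a₆ k)]

variable [(cubE a₂ a₄ a₆).IsElliptic]

instance cubE_baseChange_isElliptic : ((cubE a₂ a₄ a₆)⁄k).IsElliptic :=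
  inferInstanceAs ((cubE a₂ a₄ a₆).map (algebraMap F k)).IsElliptic

/-- The generic point `(t, √f)`. -/
noncomputable def genPt : ((cubE a₂ a₄ a₆)⁄(GenF a₂ a₄ a₆ k)).Point :=
  Point.some _ _ (equation_iff_nonsingular.mp (genPt_equation a₂ a₄ a₆ k))

/-- The conjugation of the generic field as an `F`-algebra map. -/
noncomputable def genConjF : GenF a₂ a₄ a₆ k →ₐ[F] GenF a₂ a₄ a₆ k :=
  (genConj k (algebraMap F k a₂) (algebraMap F k a₄) (algebraMap F k a₆)).restrictScalars F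

/-- The conjugation on points. -/
noncomputable def conjPt :
    ((cubE a₂ a₄ a₆)⁄(GenF a₂ a₄ a₆ k)).Point →+ ((cubE a₂ a₄ a₆)⁄(GenF a₂ a₄ a₆ k)).Point :=
  Point.map (W' := cubE a₂ a₄ a₆) (genConjF a₂ a₄ a₆ k)

/-- The subgroup of odd points: `conj P = -P`. -/
noncomputable def oddSub : AddSubgroup ((cubE a₂ a₄ a₆)⁄(GenF a₂ a₄ a₆ k)).Point where
  carrier := {P | conjPt a₂ a₄ a₆ k P = -P}
  zero_mem' := by simp
  add_mem' := by
    intro P Q hP hQ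
    simp only [Set.mem_ofPred_eq] at hP hQ ⊢
    rw [map_add, hP, hQ, neg_add]
  neg_mem' := by
    intro P hP
    simp only [Set.mem_ofPred_eq] at hP ⊢
    rw [map_neg, hP]

omit [(cubE a₂ a₄ a₆).IsElliptic] in
lemma mem_oddSub_iff (P : ((cubE a₂ a₄ a₆)⁄(GenF a₂ a₄ a₆ k)).Point) :
    P ∈ oddSub a₂ a₄ a₆ k ↔ conjPt a₂ a₄ a₆ k P = -P := Iff.rfl

lemma genPt_mem_oddSub : genPt a₂ a₄ a₆ k ∈ oddSub a₂ a₄ a₆ k := by
  rw [mem_oddSub_iff, genPt, conjPt, Point.map_some, Point.neg_some]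
  simp only [Point.some.injEq]
  refine ⟨genConj_algebraMap _ _ _ _ _, ?_⟩
  rw [cubE_negY]
  exact genConj_genY _ _ _ _

omit [(cubE a₂ a₄ a₆).IsElliptic] in
/-- Coordinates of an odd affine point. -/
lemma exists_of_mem_oddSub (h2 : (2 : k) ≠ 0) {x y : GenF a₂ a₄ a₆ k}
    {h : ((cubE a₂ a₄ a₆)⁄(GenF a₂ a₄ a₆ k)).Nonsingular x y}
    (hP : Point.some x y h ∈ oddSub a₂ a₄ a₆ k) :
    ∃ u v : RatFunc k, x = algebraMap _ _ u ∧
      y = algebraMap _ _ v * genY k (algebraMap F k a₂) (algebraMap F k a₄) (algebraMap F k a₆) := by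
  rw [mem_oddSub_iff, conjPt, Point.map_some, Point.neg_some] at hP
  simp only [Point.some.injEq] at hP
  obtain ⟨hx, hy⟩ := hP
  rw [cubE_negY] at hy
  have h2' : (2 : k) ≠ 0 := h2
  obtain ⟨u, hu⟩ := exists_of_genConj_eq h2' hx
  obtain ⟨v, hv⟩ := exists_of_genConj_eq_neg h2' hy
  exact ⟨u, v, hu, hv⟩

section Frob

variable [Fintype F]

lemma frobPt_mem_oddSub {P : ((cubE a₂ a₄ a₆)⁄(GenF a₂ a₄ a₆ k)).Point}
    (hP : P ∈ oddSub a₂ a₄ a₆ k) : frobPt (cubE a₂ a₄ a₆) (GenF a₂ a₄ a₆ k) P ∈ oddSub a₂ a₄ a₆ k := by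
  rw [mem_oddSub_iff] at hP ⊢
  rw [conjPt, ← frobPt_map, ← conjPt, hP, map_neg]

lemma hasseOp_mem_oddSub {P : ((cubE a₂ a₄ a₆)⁄(GenF a₂ a₄ a₆ k)).Point}
    (hP : P ∈ oddSub a₂ a₄ a₆ k) : hasseOp (cubE a₂ a₄ a₆) (GenF a₂ a₄ a₆ k) P ∈ oddSub a₂ a₄ a₆ k := by
  rw [hasseOp_apply]
  exact (oddSub a₂ a₄ a₆ k).add_mem
    ((oddSub a₂ a₄ a₆ k).sub_mem (frobPt_mem_oddSub a₂ a₄ a₆ k (frobPt_mem_oddSub a₂ a₄ a₆ k hP))
      ((oddSub a₂ a₄ a₆ k).zsmul_mem (frobPt_mem_oddSub a₂ a₄ a₆ k hP) _))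
    ((oddSub a₂ a₄ a₆ k).zsmul_mem hP _)

end Frob

end Fermat.Agent.H74.Cub
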