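import Fermat.Agent.H40.Hasse.Hgt
import Fermat.Agent.H74.Cub.GenPoint

/-!
# The height on the odd subgroup of the generic field (helper74, P-S58 row 1095 route A;
port of `Fermat.Agent.H40.Hasse.OddHeight` by helper40)

`oddHgt : oddSub a₂ a₄ a₆ F → ℕ`, the degree of the `x`-coordinate as a rational function, and
the exact parallelogram law for it.
-/

set_option autoImplicit false
set_option linter.unusedSectionVars false

namespace Fermat.Agent.H74.Cub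

open WeierstrassCurve WeierstrassCurve.Affine Polynomial Fermat.Agent.H40

variable {F : Type*} [Field F] (a₂ a₄ a₆ : F)

/-- The embedding `F[X] → F(t)(√f)`. -/
noncomputable def genι : F[X] →ₐ[F] GenF a₂ a₄ a₆ F :=
  (IsScalarTower.toAlgHom F (RatFunc F) (GenF a₂ a₄ a₆ F)).comp
    (IsScalarTower.toAlgHom F F[X] (RatFunc F))

lemma genι_apply (p : F[X]) :
    genι a₂ a₄ a₆ p = algebraMap (RatFunc F) (GenF a₂ a₄ a₆ F) (algebraMap F[X] (RatFunc F) p) := rfl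

lemma genι_injective : Function.Injective (genι a₂ a₄ a₆) := by
  intro p q h
  rw [genι_apply, genι_apply] at h
  exact RatFunc.algebraMap_injective F (algebraMap_genField_injective F _ _ _ h)

/-- A point whose `x`-coordinate is (the image of) `u : RatFunc F` has the `x`-representative
`(u.num : u.denom)`. -/
lemma isXRep_of_x_eq {x y : GenF a₂ a₄ a₆ F}
    (h : ((cubE a₂ a₄ a₆)⁄(GenF a₂ a₄ a₆ F)).Nonsingular x y) (u : RatFunc F)
    (hx : x = algebraMap (RatFunc F) _ u) :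
    IsXRep (cubE a₂ a₄ a₆) (genι a₂ a₄ a₆) (Point.some x y h) u.num u.denom := by
  refine ⟨RatFunc.isCoprime_num_denom u, ?_⟩
  rw [Point.xRep_some]
  simp only [Matrix.cons_val_zero, Matrix.cons_val_one, one_mul]
  rw [hx, genι_apply, genι_apply, ← map_mul]
  congr 1
  have := RatFunc.num_div_denom u
  rw [div_eq_iff (by
    rw [Ne, ← map_zero (algebraMap F[X] (RatFunc F))]
    exact fun h0 => u.denom_ne_zero (RatFunc.algebraMap_injective F h0))] at this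
  exact this.symm

lemma hgt_of_x_eq {x y : GenF a₂ a₄ a₆ F}
    (h : ((cubE a₂ a₄ a₆)⁄(GenF a₂ a₄ a₆ F)).Nonsingular x y) (u : RatFunc F)
    (hx : x = algebraMap (RatFunc F) _ u) :
    hgt (cubE a₂ a₄ a₆) (genι a₂ a₄ a₆) (Point.some x y h) =
      max u.num.natDegree u.denom.natDegree :=
  (isXRep_of_x_eq a₂ a₄ a₆ h u hx).hgt_eq (genι_injective a₂ a₄ a₆)

lemma exists_isXRep_of_mem_oddSub (h2 : (2 : F) ≠ 0)
    {P : ((cubE a₂ a₄ a₆)⁄(GenF a₂ a₄ a₆ F)).Point} (hP : P ∈ oddSub a₂ a₄ a₆ F) :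
    ∃ n d, IsXRep (cubE a₂ a₄ a₆) (genι a₂ a₄ a₆) P n d := by
  rcases P with _ | ⟨x, y, h⟩
  · exact ⟨1, 0, isXRep_zero⟩
  · obtain ⟨u, v, hu, -⟩ := exists_of_mem_oddSub a₂ a₄ a₆ F h2 hP
    exact ⟨_, _, isXRep_of_x_eq a₂ a₄ a₆ h u hu⟩

/-- The height on the odd subgroup. -/
noncomputable def oddHgt (P : oddSub a₂ a₄ a₆ F) : ℕ :=
  hgt (cubE a₂ a₄ a₆) (genι a₂ a₄ a₆) P.1

/-- **The exact parallelogram law on the odd subgroup.** -/
theorem oddHgt_parallelogram [(cubE a₂ a₄ a₆).IsElliptic] (h2 : (2 : F) ≠ 0)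
    (P Q : oddSub a₂ a₄ a₆ F) :
    oddHgt a₂ a₄ a₆ (P + Q) + oddHgt a₂ a₄ a₆ (P - Q) = 2 * oddHgt a₂ a₄ a₆ P + 2 * oddHgt a₂ a₄ a₆ Q :=
  hgt_parallelogram (genι_injective a₂ a₄ a₆)
    (exists_isXRep_of_mem_oddSub a₂ a₄ a₆ h2 P.2) (exists_isXRep_of_mem_oddSub a₂ a₄ a₆ h2 Q.2)
    (exists_isXRep_of_mem_oddSub a₂ a₄ a₆ h2 (P + Q).2)
    (exists_isXRep_of_mem_oddSub a₂ a₄ a₆ h2 (P - Q).2)

end Fermat.Agent.H74.Cub
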