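import Fermat.Agent.H40.Hasse.FrobHeight
import Fermat.Agent.H74.Cub.OddHeight
import Fermat.Agent.H74.Cub.Count

/-!
# Heights and Frobenius on the odd subgroup, for `y² = x³ + a₂ x² + a₄ x + a₆`
(helper74, P-S58 row 1095 route A; port of `Fermat.Agent.H40.Hasse.FrobHeight` by helper40)

* `hgt_genPt` : `h(P₀) = 1`;
* `two_zsmul_eq_zero_of_hgt_eq_zero` : an odd point of height `0` is `2`-torsion;
* `hgt_frobPt_sub` : `h(φ P - P) = #E(F) · h(P)` for odd points.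
-/

set_option autoImplicit false
set_option linter.unusedSectionVars false

namespace Fermat.Agent.H74.Cub

open WeierstrassCurve WeierstrassCurve.Affine Polynomial Fermat.Agent.H40

variable {F : Type*} [Field F] [Fintype F]

variable (a₂ a₄ a₆ : F) [(cubE a₂ a₄ a₆).IsElliptic]

omit [Fintype F] in
lemma hgt_genPt : hgt (cubE a₂ a₄ a₆) (genι a₂ a₄ a₆) (genPt a₂ a₄ a₆ F) = 1 := by
  have h := hgt_of_x_eq a₂ a₄ a₆
    (equation_iff_nonsingular.mp (genPt_equation a₂ a₄ a₆ F)) RatFunc.X rfl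
  rw [genPt, h, RatFunc.num_X, RatFunc.denom_X]
  simp

omit [Fintype F] [(cubE a₂ a₄ a₆).IsElliptic] in
/-- An odd point with constant `x`-coordinate has `y = 0`. -/
lemma y_eq_zero_of_const (h2 : (2 : F) ≠ 0) {x y : GenF a₂ a₄ a₆ F}
    {h : ((cubE a₂ a₄ a₆)⁄(GenF a₂ a₄ a₆ F)).Nonsingular x y}
    (hP : Point.some x y h ∈ oddSub a₂ a₄ a₆ F) {c : F}
    (hx : x = algebraMap (RatFunc F) _ (algebraMap F (RatFunc F) c)) : y = 0 := by
  obtain ⟨u, v, -, hv⟩ := exists_of_mem_oddSub a₂ a₄ a₆ F h2 hP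
  have heq := (cubE_equation_iff a₂ a₄ a₆ (GenF a₂ a₄ a₆ F) x y).mp h.1
  by_contra hy
  have hv0 : v ≠ 0 := by
    rintro rfl
    apply hy
    rw [hv, map_zero, zero_mul]
  -- `v² f = e` with `e` constant
  set e : F := c ^ 3 + a₂ * c ^ 2 + a₄ * c + a₆ with he
  have key : v ^ 2 * cubicK F (algebraMap F F a₂) (algebraMap F F a₄) (algebraMap F F a₆) =
      algebraMap F (RatFunc F) e := by
    apply algebraMap_genField_injective F (algebraMap F F a₂) (algebraMap F F a₄) (algebraMap F F a₆)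
    rw [map_mul, map_pow, ← genY_sq, ← mul_pow, ← hv, heq, hx, he]
    simp only [map_add, map_mul, map_pow]
    rw [IsScalarTower.algebraMap_apply F (RatFunc F) (GenF a₂ a₄ a₆ F) a₂,
      IsScalarTower.algebraMap_apply F (RatFunc F) (GenF a₂ a₄ a₆ F) a₄,
      IsScalarTower.algebraMap_apply F (RatFunc F) (GenF a₂ a₄ a₆ F) a₆]
  have hne : v ^ 2 * cubicK F (algebraMap F F a₂) (algebraMap F F a₄) (algebraMap F F a₆) ≠ 0 := by
    apply mul_ne_zero (pow_ne_zero _ hv0)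
    intro h0
    have := cubicK_intDegree F (algebraMap F F a₂) (algebraMap F F a₄) (algebraMap F F a₆)
    rw [h0] at this
    simp at this
  have hdeg := congrArg RatFunc.intDegree key
  rw [RatFunc.intDegree_mul (pow_ne_zero _ hv0) (by
      intro h0
      apply hne
      rw [h0, mul_zero]), pow_two, RatFunc.intDegree_mul hv0 hv0, cubicK_intDegree,
    RatFunc.algebraMap_eq_C, RatFunc.intDegree_C] at hdeg
  omega

omit [Fintype F] [(cubE a₂ a₄ a₆).IsElliptic] in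
/-- An odd point of height `0` is killed by `2`. -/
theorem two_zsmul_eq_zero_of_hgt_eq_zero (h2 : (2 : F) ≠ 0)
    {P : ((cubE a₂ a₄ a₆)⁄(GenF a₂ a₄ a₆ F)).Point} (hP : P ∈ oddSub a₂ a₄ a₆ F)
    (h0 : hgt (cubE a₂ a₄ a₆) (genι a₂ a₄ a₆) P = 0) : (2 : ℤ) • P = 0 := by
  rcases P with _ | ⟨x, y, h⟩
  · show (2 : ℤ) • (0 : ((cubE a₂ a₄ a₆)⁄(GenF a₂ a₄ a₆ F)).Point) = 0
    exact zsmul_zero 2
  · obtain ⟨u, v, hu, -⟩ := exists_of_mem_oddSub a₂ a₄ a₆ F h2 hP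
    rw [hgt_of_x_eq a₂ a₄ a₆ h u hu] at h0
    obtain ⟨c, hc⟩ := (Fermat.Agent.H77.ratDeg_eq_zero_iff u).mp h0
    have hy : y = 0 := y_eq_zero_of_const a₂ a₄ a₆ h2 hP (hu.trans (by rw [hc]))
    rw [two_zsmul]
    apply Point.add_self_of_Y_eq
    rw [cubE_negY, hy, neg_zero]

omit [(cubE a₂ a₄ a₆).IsElliptic] in
/-- The chord formula for `x(φ P - P)` in terms of `x(P)` alone. -/
lemma frob_chord (h2 : (2 : F) ≠ 0) {L : Type*} [Field L] [Algebra F L] {x y X₃ : L}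
    (heq : y ^ 2 = x ^ 3 + algebraMap F L a₂ * x ^ 2 + algebraMap F L a₄ * x + algebraMap F L a₆)
    (hX : X₃ * (x ^ Fintype.card F - x) ^ 2 =
      (y ^ Fintype.card F + y) ^ 2 -
        (x ^ Fintype.card F + x + algebraMap F L a₂) * (x ^ Fintype.card F - x) ^ 2) :
    X₃ * aeval x (Fermat.Agent.H32.mcD F ^ 2) = aeval x (cqNum a₂ a₄ a₆) := by
  have hy : y ^ Fintype.card F = y * (y ^ 2) ^ (Fintype.card F / 2) := by
    conv_lhs => rw [card_odd h2]
    rw [pow_succ, pow_mul, mul_comm]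
  have hy' : y ^ Fintype.card F =
      y * (x ^ 3 + algebraMap F L a₂ * x ^ 2 + algebraMap F L a₄ * x + algebraMap F L a₆) ^
        (Fintype.card F / 2) := by
    rw [hy, heq]
  simp only [cqNum, cqG, cqCubic, Fermat.Agent.H32.mcD, map_sub, map_mul, map_pow, map_add,
    aeval_X, aeval_C, map_one]
  rw [hX, hy']
  linear_combination
    ((x ^ 3 + algebraMap F L a₂ * x ^ 2 + algebraMap F L a₄ * x + algebraMap F L a₆) ^
      (Fintype.card F / 2) + 1) ^ 2 * heq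

/-- **`h(φ P - P) = #E(F) · h(P)`** on the odd subgroup. -/
theorem hgt_frobPt_sub (h2 : (2 : F) ≠ 0)
    {P : ((cubE a₂ a₄ a₆)⁄(GenF a₂ a₄ a₆ F)).Point} (hP : P ∈ oddSub a₂ a₄ a₆ F) :
    hgt (cubE a₂ a₄ a₆) (genι a₂ a₄ a₆) (frobPt (cubE a₂ a₄ a₆) (GenF a₂ a₄ a₆ F) P - P) =
      Nat.card (cubE a₂ a₄ a₆).toAffine.Point * hgt (cubE a₂ a₄ a₆) (genι a₂ a₄ a₆) P := by
  have hι := genι_injective a₂ a₄ a₆
  rcases P with _ | ⟨x, y, h⟩
  · rw [show (Point.zero : ((cubE a₂ a₄ a₆)⁄(GenF a₂ a₄ a₆ F)).Point) = 0 from rfl, map_zero,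
      sub_zero, hgt_zero hι, mul_zero]
  obtain ⟨u, v, hu, hv⟩ := exists_of_mem_oddSub a₂ a₄ a₆ F h2 hP
  have heq := (cubE_equation_iff a₂ a₄ a₆ (GenF a₂ a₄ a₆ F) x y).mp h.1
  obtain ⟨h', e'⟩ := frobPt_some (cubE a₂ a₄ a₆) (GenF a₂ a₄ a₆ F) h
  have hhP := hgt_of_x_eq a₂ a₄ a₆ h u hu
  by_cases hc : ∃ c : F, u = RatFunc.C c
  · -- constant `x`: the point is `2`-torsion and fixed by Frobenius
    obtain ⟨c, rfl⟩ := hc
    have hy : y = 0 :=
      y_eq_zero_of_const a₂ a₄ a₆ h2 hP (hu.trans (by rw [RatFunc.algebraMap_eq_C]))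
    have hxq : x ^ Fintype.card F = x := by
      rw [hu, ← map_pow, ← map_pow, FiniteField.pow_card]
    have hfix : frobPt (cubE a₂ a₄ a₆) (GenF a₂ a₄ a₆ F) (Point.some x y h) = Point.some x y h := by
      rw [e']
      simp only [Point.some.injEq]
      exact ⟨hxq, by rw [hy, zero_pow Fintype.card_ne_zero]⟩
    rw [hfix, sub_self, hgt_zero hι, hhP]
    simp
  · -- nonconstant `x`
    have hxne : x ^ Fintype.card F ≠ x := by
      rw [hu, ← map_pow]
      intro h0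
      exact pow_card_ne_self hc (algebraMap_genField_injective F _ _ _ h0)
    have hsub : frobPt (cubE a₂ a₄ a₆) (GenF a₂ a₄ a₆ F) (Point.some x y h) - Point.some x y h =
        Point.some _ _ (nonsingular_add h' ((nonsingular_neg ..).mpr h)
          fun hxy => hxne hxy.left) := by
      rw [e', sub_eq_add_neg, Point.neg_some, Point.add_of_X_ne hxne]
    have hX := Fermat.Agent.H70.addX_slope_mul_sq ((cubE a₂ a₄ a₆)⁄(GenF a₂ a₄ a₆ F))
      (y ^ Fintype.card F) (((cubE a₂ a₄ a₆)⁄(GenF a₂ a₄ a₆ F)).negY x y) hxne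
    rw [cubE_negY] at hX
    have ha₁ : ((cubE a₂ a₄ a₆)⁄(GenF a₂ a₄ a₆ F)).a₁ = 0 := by
      simp [cubE, WeierstrassCurve.baseChange, WeierstrassCurve.map]
    have ha₂ : ((cubE a₂ a₄ a₆)⁄(GenF a₂ a₄ a₆ F)).a₂ = algebraMap F (GenF a₂ a₄ a₆ F) a₂ := by
      simp [cubE, WeierstrassCurve.baseChange, WeierstrassCurve.map]
    rw [ha₁, ha₂] at hX
    set X₃ := ((cubE a₂ a₄ a₆)⁄(GenF a₂ a₄ a₆ F)).toAffine.addX (x ^ Fintype.card F) x
      (((cubE a₂ a₄ a₆)⁄(GenF a₂ a₄ a₆ F)).toAffine.slope (x ^ Fintype.card F) x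
        (y ^ Fintype.card F) (((cubE a₂ a₄ a₆)⁄(GenF a₂ a₄ a₆ F)).toAffine.negY x y)) with hX₃
    have hchord := frob_chord a₂ a₄ a₆ h2 heq (X₃ := X₃) (by
      rw [cubE_negY] at hX₃
      rw [hX₃]
      linear_combination hX)
    -- pull back to `RatFunc F`
    set w : RatFunc F := aeval u (cqNum a₂ a₄ a₆) / aeval u (Fermat.Agent.H32.mcD F ^ 2) with hw
    have hden : aeval u (Fermat.Agent.H32.mcD F ^ 2) ≠ 0 := by
      simp only [Fermat.Agent.H32.mcD, map_pow, map_sub, aeval_X]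
      exact pow_ne_zero _ (sub_ne_zero.mpr (pow_card_ne_self hc))
    have hX₃w : X₃ = algebraMap (RatFunc F) (GenF a₂ a₄ a₆ F) w := by
      rw [hw, map_div₀, eq_div_iff (by
        intro h0
        exact hden (algebraMap_genField_injective F _ _ _ (by rw [h0, map_zero]))),
        ← aeval_algebraMap_apply, ← aeval_algebraMap_apply, ← hu]
      exact hchord
    rw [hsub, hgt_of_x_eq a₂ a₄ a₆ _ w hX₃w, hhP, hw]
    have hB4 := Fermat.Agent.H77.ratDeg_comp (cqNum a₂ a₄ a₆) (Fermat.Agent.H32.mcD F ^ 2) u hc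
    rw [hB4]
    congr 1
    exact cq_count_max h2 a₂ a₄ a₆ (cubE a₂ a₄ a₆).isUnit_Δ.ne_zero

end Fermat.Agent.H74.Cub
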