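import Fermat.Agent.H40.Hasse.Trans
import Fermat.Agent.H74.Cub.GenPoint

/-!
# From the generic point to all points, for `y² = x³ + a₂ x² + a₄ x + a₆`
(helper74, P-S58 row 1095 route A; port of `Fermat.Agent.H40.Hasse.Trans` by helper40)

If `2 • (φ² - aφ + q) P₀ = 0` for the generic point `P₀ = (t, √f)` over `F(t)(√f)`, then
`2 • (φ² - aφ + q) Q = 0` for every point `Q` of the curve over every field extension of `F`.
No specialisation (reduction) is used, only field embeddings: a point with transcendental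
`x`-coordinate is the image of the generic point under a field embedding, and every point is a
difference of two such points.
-/

set_option autoImplicit false
set_option linter.unusedSectionVars false

namespace Fermat.Agent.H74.Cub

open WeierstrassCurve WeierstrassCurve.Affine Polynomial Fermat.Agent.H40

variable {F : Type*} [Field F] (a₂ a₄ a₆ : F)

section Spec

variable {k : Type*} [Field k] [Algebra F k]

/-- The `F`-embedding of the generic field sending `(t, √f)` to `(ξ, η)`. -/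
noncomputable def specHom (ξ η : k) (hξ : Transcendental F ξ)
    (h : η ^ 2 = ξ ^ 3 + algebraMap F k a₂ * ξ ^ 2 + algebraMap F k a₄ * ξ + algebraMap F k a₆) :
    GenF a₂ a₄ a₆ F →ₐ[F] k :=
  AdjoinRoot.liftAlgHom _ (evalTrans ξ hξ) η (by
    have e := evalTrans_algebraMap ξ hξ (cubicPoly F (algebraMap F F a₂) (algebraMap F F a₄) (algebraMap F F a₆))
    rw [genPoly, eval₂_sub, eval₂_pow, eval₂_X, eval₂_C, cubicK]
    rw [show ((evalTrans ξ hξ : RatFunc F →+* k)
      (algebraMap F[X] (RatFunc F) (cubicPoly F (algebraMap F F a₂) (algebraMap F F a₄) (algebraMap F F a₆)))) =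
        aeval ξ (cubicPoly F (algebraMap F F a₂) (algebraMap F F a₄) (algebraMap F F a₆)) from e]
    rw [cubicPoly]
    simp only [map_add, map_mul, map_pow, aeval_X, aeval_C, Algebra.algebraMap_self,
      RingHom.id_apply]
    rw [h]; ring)

lemma specHom_genY (ξ η : k) (hξ : Transcendental F ξ)
    (h : η ^ 2 = ξ ^ 3 + algebraMap F k a₂ * ξ ^ 2 + algebraMap F k a₄ * ξ + algebraMap F k a₆) :
    specHom a₂ a₄ a₆ ξ η hξ h (genY F (algebraMap F F a₂) (algebraMap F F a₄) (algebraMap F F a₆)) = η := by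
  simp [specHom, genY]

lemma specHom_genX (ξ η : k) (hξ : Transcendental F ξ)
    (h : η ^ 2 = ξ ^ 3 + algebraMap F k a₂ * ξ ^ 2 + algebraMap F k a₄ * ξ + algebraMap F k a₆) :
    specHom a₂ a₄ a₆ ξ η hξ h (genX F (algebraMap F F a₂) (algebraMap F F a₄) (algebraMap F F a₆)) = ξ := by
  simp only [specHom, genX, AdjoinRoot.algebraMap_eq]
  erw [AdjoinRoot.liftAlgHom_of]
  exact evalTrans_X ξ hξ

end Spec

end Fermat.Agent.H74.Cub

namespace Fermat.Agent.H74.Cub

open WeierstrassCurve WeierstrassCurve.Affine Polynomial Fermat.Agent.H40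

variable {F : Type*} [Field F] [Fintype F] (a₂ a₄ a₆ : F) [(cubE a₂ a₄ a₆).IsElliptic]

/-- The Hasse relation for points with transcendental `x`-coordinate follows from the relation
for the generic point. -/
lemma hasse_of_transcendental
    (hgen : (2 : ℤ) • hasseOp (cubE a₂ a₄ a₆) (GenF a₂ a₄ a₆ F) (genPt a₂ a₄ a₆ F) = 0)
    {k : Type*} [Field k] [DecidableEq k] [Algebra F k] {ξ η : k}
    (h : ((cubE a₂ a₄ a₆)⁄k).Nonsingular ξ η) (hξ : Transcendental F ξ) :
    (2 : ℤ) • hasseOp (cubE a₂ a₄ a₆) k (Point.some ξ η h) = 0 := by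
  have heq : η ^ 2 = ξ ^ 3 + algebraMap F k a₂ * ξ ^ 2 + algebraMap F k a₄ * ξ +
      algebraMap F k a₆ :=
    (cubE_equation_iff a₂ a₄ a₆ k ξ η).mp h.1
  set ψ := specHom a₂ a₄ a₆ ξ η hξ heq with hψ
  have hmap : Point.map (W' := cubE a₂ a₄ a₆) ψ (genPt a₂ a₄ a₆ F) = Point.some ξ η h := by
    rw [genPt, Point.map_some]
    simp only [Point.some.injEq]
    exact ⟨specHom_genX a₂ a₄ a₆ ξ η hξ heq, specHom_genY a₂ a₄ a₆ ξ η hξ heq⟩
  rw [← hmap, hasseOp_map, ← map_zsmul, hgen, map_zero]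

end Fermat.Agent.H74.Cub

namespace Fermat.Agent.H74.Cub

open WeierstrassCurve WeierstrassCurve.Affine Polynomial Fermat.Agent.H40

variable {F : Type*} [Field F] [Fintype F] (a₂ a₄ a₆ : F) [(cubE a₂ a₄ a₆).IsElliptic]

section Alg

variable (k : Type*) [Field k] [Algebra F k]

omit [Fintype F] [(cubE a₂ a₄ a₆).IsElliptic] in
/-- The generic `x`-coordinate is transcendental over `k`. -/
lemma genX_transcendental :
    Transcendental k (genX k (algebraMap F k a₂) (algebraMap F k a₄) (algebraMap F k a₆)) := by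
  rw [genX, transcendental_algebraMap_iff (algebraMap_genField_injective k _ _ _)]
  exact RatFunc.transcendental_X

variable {k}
variable {k' : Type*} [Field k'] [DecidableEq k'] [Algebra F k'] [Algebra k k']
  [IsScalarTower F k k']

open scoped Classical in
/-- The subgroup of points of `E(k')` with coordinates algebraic over `k`. -/
noncomputable def algSub (k : Type*) [Field k] [Algebra F k] (k' : Type*) [Field k']
    [DecidableEq k'] [Algebra F k'] [Algebra k k'] [IsScalarTower F k k'] :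
    AddSubgroup ((cubE a₂ a₄ a₆)⁄k').Point :=
  (Point.map (W' := cubE a₂ a₄ a₆)
    ((algebraicClosure k k').val.restrictScalars F)).range

omit [Fintype F] [(cubE a₂ a₄ a₆).IsElliptic] in
lemma isAlgebraic_of_mem_algSub {x y : k'} {h : ((cubE a₂ a₄ a₆)⁄k').Nonsingular x y}
    (hP : Point.some x y h ∈ algSub a₂ a₄ a₆ k k') : IsAlgebraic k x := by
  classical
  obtain ⟨P, hP⟩ := hP
  rcases P with _ | ⟨x₀, y₀, h₀⟩
  · exact absurd (hP.symm.trans (map_zero _)) (Point.some_ne_zero h)
  · rw [Point.map_some] at hP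
    simp only [Point.some.injEq] at hP
    rw [← hP.1]
    exact mem_algebraicClosure_iff.mp x₀.2

omit [Fintype F] [(cubE a₂ a₄ a₆).IsElliptic] in
lemma mem_algSub_of_isAlgebraic {x y : k'} (h : ((cubE a₂ a₄ a₆)⁄k').Nonsingular x y)
    (hx : IsAlgebraic k x) : Point.some x y h ∈ algSub a₂ a₄ a₆ k k' := by
  classical
  have hy : IsAlgebraic k y := by
    have heq := (cubE_equation_iff a₂ a₄ a₆ k' x y).mp h.1
    apply IsAlgebraic.of_pow (n := 2) (by norm_num)
    rw [heq]
    have ha : ∀ c : F, IsAlgebraic k (algebraMap F k' c) := fun c => by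
      rw [IsScalarTower.algebraMap_apply F k k']
      exact isAlgebraic_algebraMap _
    exact (((hx.pow 3).add ((ha a₂).mul (hx.pow 2))).add ((ha a₄).mul hx)).add (ha a₆)
  let x₀ : algebraicClosure k k' := ⟨x, mem_algebraicClosure_iff.mpr hx⟩
  let y₀ : algebraicClosure k k' := ⟨y, mem_algebraicClosure_iff.mpr hy⟩
  have h₀ : ((cubE a₂ a₄ a₆)⁄(algebraicClosure k k')).Nonsingular x₀ y₀ :=
    (WeierstrassCurve.Affine.baseChange_nonsingular (cubE a₂ a₄ a₆)
      (f := (algebraicClosure k k').val.restrictScalars F)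
      ((algebraicClosure k k').val.restrictScalars F).injective x₀ y₀).mp h
  exact ⟨Point.some x₀ y₀ h₀, rfl⟩

omit [Fintype F] [(cubE a₂ a₄ a₆).IsElliptic] in
lemma map_mem_algSub [DecidableEq k] (Q : ((cubE a₂ a₄ a₆)⁄k).Point) :
    Point.map (W' := cubE a₂ a₄ a₆) (IsScalarTower.toAlgHom F k k') Q ∈ algSub a₂ a₄ a₆ k k' := by
  classical
  rcases Q with _ | ⟨x, y, h⟩
  · exact (algSub a₂ a₄ a₆ k k').zero_mem
  · rw [Point.map_some]
    exact mem_algSub_of_isAlgebraic a₂ a₄ a₆ _ (isAlgebraic_algebraMap x)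

end Alg

/-- **From the generic point to all points.** -/
theorem hasse_of_generic
    (hgen : (2 : ℤ) • hasseOp (cubE a₂ a₄ a₆) (GenF a₂ a₄ a₆ F) (genPt a₂ a₄ a₆ F) = 0)
    (k : Type*) [Field k] [DecidableEq k] [Algebra F k] (Q : ((cubE a₂ a₄ a₆)⁄k).Point) :
    (2 : ℤ) • hasseOp (cubE a₂ a₄ a₆) k Q = 0 := by
  set k' := GenF a₂ a₄ a₆ k with hk'
  set j : k →ₐ[F] k' := IsScalarTower.toAlgHom F k k' with hj
  set Q' := genPt a₂ a₄ a₆ k with hQ'
  -- the generic point over `k` is not algebraic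
  have hQ'not : Q' ∉ algSub a₂ a₄ a₆ k k' := fun hmem =>
    genX_transcendental a₂ a₄ a₆ k (isAlgebraic_of_mem_algSub a₂ a₄ a₆ hmem)
  have key : ∀ S : ((cubE a₂ a₄ a₆)⁄k').Point, S ∉ algSub a₂ a₄ a₆ k k' →
      (2 : ℤ) • hasseOp (cubE a₂ a₄ a₆) k' S = 0 := by
    intro S hS
    rcases S with _ | ⟨ξ, η, h⟩
    · exact absurd (algSub a₂ a₄ a₆ k k').zero_mem hS
    · apply hasse_of_transcendental a₂ a₄ a₆ hgen h
      intro halg
      apply hS
      apply mem_algSub_of_isAlgebraic a₂ a₄ a₆ h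
      exact halg.tower_top k
  have hQt : Point.map (W' := cubE a₂ a₄ a₆) j Q ∈ algSub a₂ a₄ a₆ k k' := map_mem_algSub a₂ a₄ a₆ Q
  have hS : Point.map (W' := cubE a₂ a₄ a₆) j Q + Q' ∉ algSub a₂ a₄ a₆ k k' := by
    intro hmem
    apply hQ'not
    have := (algSub a₂ a₄ a₆ k k').sub_mem hmem hQt
    simpa using this
  have h1 := key _ hS
  have h2 := key _ hQ'not
  have h3 : (2 : ℤ) • hasseOp (cubE a₂ a₄ a₆) k' (Point.map (W' := cubE a₂ a₄ a₆) j Q) = 0 := by
    have : Point.map (W' := cubE a₂ a₄ a₆) j Q =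
        (Point.map (W' := cubE a₂ a₄ a₆) j Q + Q') - Q' := by abel
    rw [this, map_sub, smul_sub, h1, h2, sub_zero]
  rw [hasseOp_map, ← map_zsmul] at h3
  exact Point.map_injective (W' := cubE a₂ a₄ a₆) j (by rw [h3, map_zero])

end Fermat.Agent.H74.Cub
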