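import Fermat.Agent.H74.Cub.FrobHeight
import Fermat.Agent.H74.Cub.Trans
import Fermat.Agent.H77.QuadraticHeight

/-!
# The Hasse relation for the curves `y² = x³ + a₂ x² + a₄ x + a₆` over finite fields
(helper74, P-S58 row 1095 route A; port of `Fermat.Agent.H40.Hasse.Generic` by helper40)

`hasse_generic` : `2 • (φ² - a φ + q) P₀ = 0` for the generic point `P₀`;
`hasseRelation_cubic` : `2 • (φ² - a φ + q) P = 0` for every point over every extension field.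
-/

set_option autoImplicit false
set_option linter.unusedSectionVars false

namespace Fermat.Agent.H74.Cub

open WeierstrassCurve WeierstrassCurve.Affine Polynomial Fermat.Agent.H40

variable {F : Type*} [Field F] [Fintype F] (a₂ a₄ a₆ : F) [(cubE a₂ a₄ a₆).IsElliptic]

/-- Frobenius on the odd subgroup. -/
noncomputable def frobOdd (P : oddSub a₂ a₄ a₆ F) : oddSub a₂ a₄ a₆ F :=
  ⟨frobPt (cubE a₂ a₄ a₆) (GenF a₂ a₄ a₆ F) P.1, frobPt_mem_oddSub a₂ a₄ a₆ F P.2⟩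

/-- The generic point as an element of the odd subgroup. -/
noncomputable def genOdd : oddSub a₂ a₄ a₆ F := ⟨genPt a₂ a₄ a₆ F, genPt_mem_oddSub a₂ a₄ a₆ F⟩

lemma oddHgt_frobOdd (h2 : (2 : F) ≠ 0) (P : oddSub a₂ a₄ a₆ F) :
    oddHgt a₂ a₄ a₆ (frobOdd a₂ a₄ a₆ P) = Fintype.card F * oddHgt a₂ a₄ a₆ P :=
  hgt_frobPt (genι_injective a₂ a₄ a₆) (exists_isXRep_of_mem_oddSub a₂ a₄ a₆ h2 P.2)

lemma oddHgt_frobOdd_sub (h2 : (2 : F) ≠ 0) (P : oddSub a₂ a₄ a₆ F) :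
    oddHgt a₂ a₄ a₆ (frobOdd a₂ a₄ a₆ P - P) =
      Nat.card (cubE a₂ a₄ a₆).toAffine.Point * oddHgt a₂ a₄ a₆ P :=
  hgt_frobPt_sub a₂ a₄ a₆ h2 P.2

lemma frobOdd_add (P Q : oddSub a₂ a₄ a₆ F) :
    frobOdd a₂ a₄ a₆ (P + Q) = frobOdd a₂ a₄ a₆ P + frobOdd a₂ a₄ a₆ Q :=
  Subtype.ext (map_add _ _ _)

lemma frobOdd_sub (P Q : oddSub a₂ a₄ a₆ F) :
    frobOdd a₂ a₄ a₆ (P - Q) = frobOdd a₂ a₄ a₆ P - frobOdd a₂ a₄ a₆ Q :=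
  Subtype.ext (map_sub _ _ _)

/-- **The Hasse relation for the generic point.** -/
theorem hasse_generic (h2 : (2 : F) ≠ 0) :
    (2 : ℤ) • hasseOp (cubE a₂ a₄ a₆) (GenF a₂ a₄ a₆ F) (genPt a₂ a₄ a₆ F) = 0 := by
  set P₀ := genOdd a₂ a₄ a₆ with hP₀
  set Φ := frobOdd a₂ a₄ a₆ P₀ with hΦ
  set Φ₂ := frobOdd a₂ a₄ a₆ Φ with hΦ₂
  set q := Fintype.card F with hq
  set N := Nat.card (cubE a₂ a₄ a₆).toAffine.Point with hN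
  have h0 : oddHgt a₂ a₄ a₆ P₀ = 1 := hgt_genPt a₂ a₄ a₆
  have h1 : oddHgt a₂ a₄ a₆ Φ = q := by rw [hΦ, oddHgt_frobOdd a₂ a₄ a₆ h2, h0, mul_one]
  have h2' : oddHgt a₂ a₄ a₆ Φ₂ = q ^ 2 := by rw [hΦ₂, oddHgt_frobOdd a₂ a₄ a₆ h2, h1, pow_two]
  have h01 : oddHgt a₂ a₄ a₆ (Φ - P₀) = N := by
    rw [hΦ, oddHgt_frobOdd_sub a₂ a₄ a₆ h2, h0, mul_one]
  have h12 : oddHgt a₂ a₄ a₆ (Φ₂ - Φ) = q * N := by
    rw [hΦ₂, hΦ, ← frobOdd_sub, oddHgt_frobOdd a₂ a₄ a₆ h2, ← hΦ, h01]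
  have hmul : oddHgt a₂ a₄ a₆ (Φ₂ - P₀) = oddHgt a₂ a₄ a₆ (Φ - P₀) * oddHgt a₂ a₄ a₆ (Φ + P₀) := by
    have e : Φ₂ - P₀ = frobOdd a₂ a₄ a₆ (Φ + P₀) - (Φ + P₀) := by
      rw [frobOdd_add, ← hΦ₂, ← hΦ]
      abel
    rw [e, oddHgt_frobOdd_sub a₂ a₄ a₆ h2, h01]
  have key := Fermat.Agent.H77.pl_gram_nat' (h := oddHgt a₂ a₄ a₆)
    (oddHgt_parallelogram a₂ a₄ a₆ h2) P₀ Φ Φ₂ q N h0 h1 h2' h01 h12 hmul
  have hmem := (Φ₂ - ((q : ℤ) + 1 - N) • Φ + (q : ℤ) • P₀).2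
  have hval : ((Φ₂ - ((q : ℤ) + 1 - N) • Φ + (q : ℤ) • P₀ : oddSub a₂ a₄ a₆ F) :
      ((cubE a₂ a₄ a₆)⁄(GenF a₂ a₄ a₆ F)).Point) =
      hasseOp (cubE a₂ a₄ a₆) (GenF a₂ a₄ a₆ F) (genPt a₂ a₄ a₆ F) := by
    rw [hasseOp_apply, WeierstrassCurve.traceOfFrobenius, WeierstrassCurve.card,
      Nat.card_eq_fintype_card]
    rfl
  rw [← hval]
  exact two_zsmul_eq_zero_of_hgt_eq_zero a₂ a₄ a₆ h2 hmem key

/-- **The Hasse relation (up to the factor `2`) for the curves `y² = cubic`**: for every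
field extension `k` of the finite field `F` (of characteristic `≠ 2`) and every point `P` of
`y² = x³ + a₂ x² + a₄ x + a₆` over `k`:  `2 • (φ² P - a φ P + q P) = 0`, `a = q + 1 - #E(F)`. -/
theorem hasseRelation_cubic (h2 : (2 : F) ≠ 0) (k : Type*) [Field k] [DecidableEq k]
    [Algebra F k] (Q : ((cubE a₂ a₄ a₆)⁄k).Point) :
    (2 : ℤ) • hasseOp (cubE a₂ a₄ a₆) k Q = 0 :=
  hasse_of_generic a₂ a₄ a₆ (hasse_generic a₂ a₄ a₆ h2) k Q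

end Fermat.Agent.H74.Cub
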