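import Fermat.Agent.H74.Cub.Generic
import Fermat.Agent.H40.Hasse.Transfer

/-!
# The Hasse relation over every finite field of characteristic `≠ 2`
(helper74, P-S58 row 1095, route A)

`hasseRelation_of_two_ne_zero`: for every Weierstrass curve `E` with `Δ ≠ 0` over a finite field
`F` with `2 ≠ 0`, every field extension `k / F` and every point `P ∈ E(k)`:
`2 • (φ² P - a φ P + q P) = 0`, `q = #F`, `a = q + 1 - #E(F)`.

Proof: complete the square (a change of variables over `F`), transfer along it
(`Fermat.Agent.H40.hasseRelation_variableChange`), and apply `hasseRelation_cubic`, the port of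
helper40's height argument to the curves `y² = x³ + a₂ x² + a₄ x + a₆`.
-/

set_option autoImplicit false

namespace Fermat.Agent.H74.Cub

open WeierstrassCurve WeierstrassCurve.Affine Fermat.Agent.H40

variable {F : Type*} [Field F] [Fintype F]

/-- **The Hasse relation (up to the factor `2`) for every elliptic curve over a finite field of
characteristic `≠ 2`.** -/
theorem hasseRelation_of_two_ne_zero (E : WeierstrassCurve F) (h2 : (2 : F) ≠ 0)
    (hΔ : E.Δ ≠ 0) : HasseRelation E := by
  have hEll : E.IsElliptic := E.isElliptic_iff.mpr (isUnit_iff_ne_zero.mpr hΔ)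
  set C₀ : VariableChange F := ⟨1, 0, -E.a₁ / 2, -E.a₃ / 2⟩ with hC₀
  set S := C₀ • E with hS
  have h1 : S.a₁ = 0 := by
    rw [hS, variableChange_a₁]
    simp only [hC₀, inv_one, Units.val_one, one_mul]
    field_simp
    ring
  have h3 : S.a₃ = 0 := by
    rw [hS, variableChange_a₃]
    simp only [hC₀, inv_one, Units.val_one, one_pow, one_mul, zero_mul, add_zero]
    field_simp
    ring
  have hSs : S = cubE S.a₂ S.a₄ S.a₆ := by
    ext
    · exact h1
    · rfl
    · exact h3
    · rfl
    · rfl
  have hE : E = C₀⁻¹ • S := by rw [hS, inv_smul_smul]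
  have : (cubE S.a₂ S.a₄ S.a₆).IsElliptic := by rw [← hSs]; infer_instance
  rw [hE, hSs]
  exact hasseRelation_variableChange _ _ fun k _ _ _ P =>
    hasseRelation_cubic S.a₂ S.a₄ S.a₆ h2 k P

end Fermat.Agent.H74.Cub
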